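import Fermat.Agent.AbScheme.Group.Thicken

/-!
Multiplication by an invertible integer is etale, finite and surjective.
-/

set_option autoImplicit false
set_option linter.unusedSectionVars false

noncomputable section

universe u

namespace FLTAgent.AbScheme

open CategoryTheory CategoryTheory.Limits AlgebraicGeometry NeronModelInfra GoodReductionJacobian

variable {K : Type u} [Field K] {A : Scheme.{u}} {f : A ⟶ Spec (CommRingCat.of K)}
  (L : RelativeGroupLaw K f)

/-- The quotient of two points with the same restriction restricts to the unit. -/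
theorem comp_div {T T' : Scheme.{u}} (t : T ⟶ Spec (CommRingCat.of K)) (ψ : T' ⟶ T)
    {x y : SchemeHomOver t f} (h : ψ ≫ x.1 = ψ ≫ y.1) :
    ψ ≫ (L.mul t x (L.inv t y)).1 = ψ ≫ (L.one t).1 := by
  rw [← L.mul_inv_cancel t y, comp_mul L t (ψ ≫ t) ψ rfl, comp_mul L t (ψ ≫ t) ψ rfl,
    show schemeHomOverComp ψ (rfl : ψ ≫ t = _) x = schemeHomOverComp ψ rfl y from Subtype.ext h]

/-- A point restricting to the unit does not change the restriction. -/
theorem comp_mul_of_comp_eq_one {T T' : Scheme.{u}} (t : T ⟶ Spec (CommRingCat.of K)) (ψ : T' ⟶ T)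
    {z x : SchemeHomOver t f} (h : ψ ≫ z.1 = ψ ≫ (L.one t).1) :
    ψ ≫ (L.mul t z x).1 = ψ ≫ x.1 := by
  rw [comp_mul L t (ψ ≫ t) ψ rfl,
    show schemeHomOverComp ψ (rfl : ψ ≫ t = _) z = schemeHomOverComp ψ rfl (L.one t) from
      Subtype.ext h, ← comp_mul L t (ψ ≫ t) ψ rfl, L.one_mul]

variable {L} in
/-- Two lifts of a point with the same multiple agree. -/
theorem eq_of_nsmul_eq (hc : L.IsCommutative) {n : ℕ} (hn0 : (n : K) ≠ 0)
    {R R₀ : CommRingCat.{u}} (q : R ⟶ R₀) (hq : Function.Surjective q.hom)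
    (hI : RingHom.ker q.hom ^ 2 = ⊥) {τ : CommRingCat.of K ⟶ R}
    {x y : SchemeHomOver (Spec.map τ) f} (h₀ : Spec.map q ≫ x.1 = Spec.map q ≫ y.1)
    (h : L.nsmul (Spec.map τ) n x = L.nsmul (Spec.map τ) n y) : x = y := by
  let := L.pointGroup (Spec.map τ)
  have hd := eq_one_of_nsmul_eq_one hn0 q hq hI (comp_div L (Spec.map τ) _ h₀) (by
    apply mul_right_cancel (b := L.nsmul (Spec.map τ) n y)
    show L.mul _ _ _ = L.mul _ _ _
    rw [← nsmul_mul L hc, L.one_mul, show L.mul (Spec.map τ) (L.mul _ x (L.inv _ y)) y = x from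
      inv_mul_cancel_right x y, h])
  exact mul_inv_eq_one.mp hd

variable {L} in
/-- A point which is a multiple modulo a square zero ideal is a multiple. -/
theorem exists_nsmul_eq_of_lift (hc : L.IsCommutative) {n : ℕ} (hn0 : (n : K) ≠ 0)
    {R R₀ : CommRingCat.{u}} (q : R ⟶ R₀) (hq : Function.Surjective q.hom)
    (hI : RingHom.ker q.hom ^ 2 = ⊥) {τ : CommRingCat.of K ⟶ R}
    (x₁ y : SchemeHomOver (Spec.map τ) f)
    (h : Spec.map q ≫ (L.nsmul (Spec.map τ) n x₁).1 = Spec.map q ≫ y.1) :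
    ∃ x : SchemeHomOver (Spec.map τ) f,
      Spec.map q ≫ x.1 = Spec.map q ≫ x₁.1 ∧ L.nsmul (Spec.map τ) n x = y := by
  let := L.pointGroup (Spec.map τ)
  obtain ⟨z, hz, hzn⟩ := exists_nsmul_eq hn0 q hq hI
    (comp_div L (Spec.map τ) (Spec.map q) (x := y) (y := L.nsmul (Spec.map τ) n x₁) h.symm)
  refine ⟨L.mul _ z x₁, comp_mul_of_comp_eq_one L _ _ hz, ?_⟩
  rw [nsmul_mul L hc, hzn]
  exact inv_mul_cancel_right y _

variable {L} in
/-- Multiplication by an invertible integer is formally etale on affine charts. -/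
theorem formallyEtale_appLE (hc : L.IsCommutative) {n : ℕ} (hn0 : (n : K) ≠ 0) [Smooth f]
    {U : A.Opens} (hU : IsAffineOpen U) {V : A.Opens} (hV : IsAffineOpen V)
    (e : V ≤ L.schemeNsmul n ⁻¹ᵁ U) :
    letI := ((L.schemeNsmul n).appLE U V e).hom.toAlgebra
    Algebra.FormallyEtale Γ(A, U) Γ(A, V) := by
  set g := (L.schemeNsmul n).appLE U V e with hg
  let := g.hom.toAlgebra
  have hsq : Spec.map g ≫ hU.fromSpec = hV.fromSpec ≫ L.schemeNsmul n :=
    IsAffineOpen.SpecMap_appLE_fromSpec _ hU hV e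
  set κU := Spec.preimage (hU.fromSpec ≫ f) with hκU
  set κV := Spec.preimage (hV.fromSpec ≫ f) with hκV
  have hκ : κU ≫ g = κV := Spec.map_injective (by
    rw [Spec.map_comp, hκU, hκV, Spec.map_preimage, Spec.map_preimage, ← Category.assoc, hsq,
      Category.assoc, L.schemeNsmul_over])
  have hfib : ∀ {R : CommRingCat.{u}} (φ : Γ(A, V) ⟶ R) (τ : CommRingCat.of K ⟶ R),
      κV ≫ φ = τ → (Spec.map φ ≫ hV.fromSpec) ≫ f = Spec.map τ := fun φ τ h => by
    rw [← h, Spec.map_comp, hκV, Spec.map_preimage, Category.assoc]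
  have hmul : ∀ {R : CommRingCat.{u}} (φ : Γ(A, V) ⟶ R) (τ : CommRingCat.of K ⟶ R)
      (h : κV ≫ φ = τ),
      (L.nsmul (Spec.map τ) n ⟨Spec.map φ ≫ hV.fromSpec, hfib φ τ h⟩).1 =
        Spec.map (g ≫ φ) ≫ hU.fromSpec := fun φ τ h => by
    rw [coe_nsmul, Spec.map_comp, Category.assoc, Category.assoc, hsq]
  rw [Algebra.FormallyEtale.iff_comp_bijective]
  intro B _ _ I hI
  let R : CommRingCat.{u} := CommRingCat.of B
  let R₀ : CommRingCat.{u} := CommRingCat.of (B ⧸ I)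
  let q : R ⟶ R₀ := CommRingCat.ofHom (Ideal.Quotient.mk I)
  have hq : Function.Surjective q.hom := Ideal.Quotient.mk_surjective
  have hI' : RingHom.ker q.hom ^ 2 = ⊥ := by
    rw [show RingHom.ker q.hom = I from Ideal.mk_ker, hI]
  let b : Γ(A, U) ⟶ R := CommRingCat.ofHom (algebraMap Γ(A, U) B)
  let τ : CommRingCat.of K ⟶ R := κU ≫ b
  have hb : ∀ φ : Γ(A, V) →ₐ[Γ(A, U)] B, g ≫ CommRingCat.ofHom φ.toRingHom = b := fun φ =>
    CommRingCat.hom_ext (RingHom.ext fun r => φ.commutes r)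
  have hτ : ∀ φ : Γ(A, V) →ₐ[Γ(A, U)] B, κV ≫ CommRingCat.ofHom φ.toRingHom = τ := fun φ => by
    rw [← hκ, Category.assoc, hb]
  constructor
  · intro φ φ' hφ
    have hq' : CommRingCat.ofHom φ.toRingHom ≫ q = CommRingCat.ofHom φ'.toRingHom ≫ q :=
      CommRingCat.hom_ext (RingHom.ext fun r => AlgHom.congr_fun hφ r)
    have h := eq_of_nsmul_eq hc hn0 q hq hI' (x := ⟨_, hfib _ _ (hτ φ)⟩)
      (y := ⟨_, hfib _ _ (hτ φ')⟩)
      (by show Spec.map q ≫ Spec.map _ ≫ _ = Spec.map q ≫ Spec.map _ ≫ _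
          rw [← Category.assoc, ← Spec.map_comp, hq', Spec.map_comp, Category.assoc])
      (Subtype.ext (by rw [hmul _ _ (hτ φ), hmul _ _ (hτ φ'), hb, hb]))
    have h' := chart_injective hV (congrArg Subtype.val h)
    exact AlgHom.ext fun r => congrArg (fun m : Γ(A, V) ⟶ R => m.hom r) h'
  · intro φ₀
    let ψ₀ : Γ(A, V) ⟶ R₀ := CommRingCat.ofHom φ₀.toRingHom
    have hψ₀ : g ≫ ψ₀ = b ≫ q := CommRingCat.hom_ext (RingHom.ext fun r => φ₀.commutes r)
    have hκψ : κV ≫ ψ₀ = τ ≫ q := by rw [← hκ, Category.assoc, hψ₀, Category.assoc]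
    have hs : κV.hom.Smooth := by
      rw [← HasRingHomProperty.Spec_iff (P := @Smooth), hκV, Spec.map_preimage]
      infer_instance
    let aV : Algebra K Γ(A, V) := κV.hom.toAlgebra
    let aB : Algebra K B := τ.hom.toAlgebra
    have : Algebra.Smooth K Γ(A, V) := hs
    let χ₀ : Γ(A, V) →ₐ[K] B ⧸ I :=
      { φ₀.toRingHom with
        commutes' := fun k => congrArg (fun m : CommRingCat.of K ⟶ R₀ => m.hom k) hκψ }
    let χ := Algebra.FormallySmooth.lift I ⟨2, hI⟩ χ₀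
    let φ₁ : Γ(A, V) ⟶ R := CommRingCat.ofHom χ.toRingHom
    have hφ₁ : φ₁ ≫ q = ψ₀ :=
      CommRingCat.hom_ext (RingHom.ext fun r => Algebra.FormallySmooth.mk_lift I ⟨2, hI⟩ χ₀ r)
    have hκφ₁ : κV ≫ φ₁ = τ := CommRingCat.hom_ext (RingHom.ext fun k => χ.commutes k)
    let y : SchemeHomOver (Spec.map τ) f := ⟨Spec.map b ≫ hU.fromSpec, by
      rw [Category.assoc, show hU.fromSpec ≫ f = Spec.map κU from (Spec.map_preimage _).symm,
        ← Spec.map_comp]⟩
    obtain ⟨x, hx, hxy⟩ := exists_nsmul_eq_of_lift hc hn0 q hq hI'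
      ⟨_, hfib _ _ hκφ₁⟩ y (by
        rw [hmul _ _ hκφ₁]
        show _ = Spec.map q ≫ Spec.map b ≫ hU.fromSpec
        rw [← Category.assoc, ← Category.assoc, ← Spec.map_comp, ← Spec.map_comp, Category.assoc,
          hφ₁, hψ₀])
    replace hx : Spec.map q ≫ x.1 = Spec.map ψ₀ ≫ hV.fromSpec := by
      rw [hx]
      show Spec.map q ≫ Spec.map φ₁ ≫ hV.fromSpec = _
      rw [← Category.assoc, ← Spec.map_comp, hφ₁]
    obtain ⟨φ, hφ⟩ := exists_chart hV x.1 fun s => by
      obtain ⟨s₀, rfl⟩ := surjective_specMap_of_sq_zero q hq hI' s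
      have h1 : x.1 (Spec.map q s₀) = (Spec.map ψ₀ ≫ hV.fromSpec) s₀ :=
        congrArg (fun m : Spec R₀ ⟶ A => m s₀) hx
      rw [h1]
      exact chart_mem hV ψ₀ s₀
    have hgφ : g ≫ φ = b := chart_injective hU (by
      rw [Spec.map_comp, Category.assoc, hsq, ← Category.assoc, hφ, ← coe_nsmul L (Spec.map τ) n x,
        hxy])
    have hφq : φ ≫ q = ψ₀ := chart_injective hV (by rw [Spec.map_comp, Category.assoc, hφ, hx])
    exact ⟨{ φ.hom with commutes' := fun r => congrArg (fun m : Γ(A, U) ⟶ R => m.hom r) hgφ },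
      AlgHom.ext fun r => congrArg (fun m : Γ(A, V) ⟶ R₀ => m.hom r) hφq⟩

variable {L} in
theorem etale_of_invertible (hc : L.IsCommutative) {n : ℕ} (hn0 : (n : K) ≠ 0) [Smooth f] :
    Etale (L.schemeNsmul n) := by
  have : IsLocallyNoetherian A := LocallyOfFiniteType.isLocallyNoetherian f
  have : LocallyOfFiniteType (L.schemeNsmul n ≫ f) := by rw [L.schemeNsmul_over]; infer_instance
  have : LocallyOfFiniteType (L.schemeNsmul n) := locallyOfFiniteType_of_comp _ f
  refine ⟨fun {U} hU {V} hV e => ?_⟩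
  have hft := (L.schemeNsmul n).finiteType_appLE hU hV e
  have : IsNoetherianRing Γ(A, U) := IsLocallyNoetherian.component_noetherian ⟨U, hU⟩
  let := ((L.schemeNsmul n).appLE U V e).hom.toAlgebra
  have : Algebra.FiniteType Γ(A, U) Γ(A, V) := hft
  exact ⟨formallyEtale_appLE hc hn0 hU hV e, Algebra.FinitePresentation.of_finiteType.mp this⟩

/-- Etale morphisms are locally quasi-finite. -/
theorem locallyQuasiFinite_of_etale {X Y : Scheme.{u}} (g : X ⟶ Y) [Etale g] :
    LocallyQuasiFinite g := by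
  rw [HasRingHomProperty.iff_appLE (P := @LocallyQuasiFinite)]
  intro U V e
  let := (g.appLE U.1 V.1 e).hom.toAlgebra
  have : Algebra.Etale Γ(Y, U.1) Γ(X, V.1) := g.etale_appLE U.2 V.2 e
  exact inferInstanceAs (Algebra.QuasiFinite Γ(Y, U.1) Γ(X, V.1))

end FLTAgent.AbScheme
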