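import Fermat.Agent.AbScheme.Group.Points

/-!
Smooth schemes over a field are reduced; connected smooth group schemes and products of smooth
proper integral schemes over an algebraically closed field are integral.
-/

set_option autoImplicit false
set_option linter.unusedSectionVars false

noncomputable section

universe u

namespace FLTAgent.AbScheme

open CategoryTheory CategoryTheory.Limits AlgebraicGeometry NeronModelInfra GoodReductionJacobian
  TopologicalSpace

/-- An etale algebra over a domain is reduced. -/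
theorem isReduced_of_etale_domain {R S : Type u} [CommRing R] [IsDomain R] [CommRing S]
    [Algebra R S] [Algebra.Etale R S] : _root_.IsReduced S := by
  let F := FractionRing R
  have : _root_.IsReduced (TensorProduct R F S) :=
    Algebra.FormallyUnramified.isReduced_of_field F (TensorProduct R F S)
  refine isReduced_of_injective
    (Algebra.TensorProduct.includeRight : S →ₐ[R] TensorProduct R F S) ?_
  have h : Function.Injective
      (LinearMap.rTensor S (Algebra.linearMap R F) : TensorProduct R R S →ₗ[R] _) :=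
    Module.Flat.rTensor_preserves_injective_linearMap _ (IsFractionRing.injective R F)
  intro a b hab
  apply (TensorProduct.lid R S).symm.injective
  apply h
  simpa using hab

variable {K : Type u} [Field K]

/-- A smooth scheme over a field is reduced. -/
theorem isReduced_of_smooth {X : Scheme.{u}} (f : X ⟶ Spec (CommRingCat.of K)) [Smooth f] :
    IsReduced X := by
  have : ∀ x : X, _root_.IsReduced (X.presheaf.stalk x) := fun x => by
    obtain ⟨U, hU, V, hV, hx, e, hs⟩ := Smooth.exists_isStandardSmooth f x
    obtain ⟨n, g, -, hg⟩ := RingHom.IsStandardSmooth.exists_etale_mvPolynomial hs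
    have : IsDomain Γ(Spec (CommRingCat.of K), U) := by
      have : Nonempty U := ⟨⟨f x, e hx⟩⟩
      infer_instance
    algebraize [g]
    have : _root_.IsReduced Γ(X, V) :=
      isReduced_of_etale_domain (R := MvPolynomial (Fin n) Γ(Spec (CommRingCat.of K), U))
    let := TopCat.Presheaf.algebra_section_stalk X.presheaf ⟨x, hx⟩
    have := hV.isLocalization_stalk ⟨x, hx⟩
    exact isReduced_localizationPreserves (hV.primeIdealOf ⟨x, hx⟩).asIdeal.primeCompl
      (X.presheaf.stalk x) ‹_›
  exact isReduced_of_isReduced_stalk X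

/-- The point of the base. -/
abbrev basePt (K : Type u) [Field K] : Spec (CommRingCat.of K) := IsLocalRing.closedPoint K

variable [IsAlgClosed K]

/-- Translations act transitively on closed points. -/
theorem exists_translate_apply {A : Scheme.{u}} {f : A ⟶ Spec (CommRingCat.of K)}
    [LocallyOfFiniteType f] (L : RelativeGroupLaw K f) {x y : A} (hx : IsClosed {x})
    (hy : IsClosed {y}) : ∃ p, translate L p x = y := by
  let px : SchemeHomOver (𝟙 (Spec (CommRingCat.of K))) f :=
    ⟨pointOfClosedPoint f x hx, pointOfClosedPoint_comp f x hx⟩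
  let py : SchemeHomOver (𝟙 (Spec (CommRingCat.of K))) f :=
    ⟨pointOfClosedPoint f y hy, pointOfClosedPoint_comp f y hy⟩
  let := L.pointGroup (𝟙 (Spec (CommRingCat.of K)))
  refine ⟨px⁻¹ * py, ?_⟩
  have h := comp_translate L (𝟙 (Spec (CommRingCat.of K))) px (px⁻¹ * py)
  rw [show constPoint (𝟙 (Spec (CommRingCat.of K))) (px⁻¹ * py) = px⁻¹ * py from
      Subtype.ext (Category.id_comp _), show L.mul _ px (px⁻¹ * py) = py from
      mul_inv_cancel_left px py] at h
  have h1 := congrArg (fun m : Spec (CommRingCat.of K) ⟶ A => m (basePt K)) h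
  replace h1 : translate L (px⁻¹ * py) (pointOfClosedPoint f x hx (basePt K)) =
      pointOfClosedPoint f y hy (basePt K) := h1
  rwa [pointOfClosedPoint_apply f x hx, pointOfClosedPoint_apply f y hy] at h1

/-- A connected group scheme of finite type is irreducible. -/
theorem irreducibleSpace_of_groupLaw {A : Scheme.{u}} {f : A ⟶ Spec (CommRingCat.of K)}
    [LocallyOfFiniteType f] [QuasiCompact f] [ConnectedSpace A] (L : RelativeGroupLaw K f) :
    IrreducibleSpace A := by
  have : CompactSpace A := QuasiCompact.compactSpace_of_compactSpace f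
  have : IsLocallyNoetherian A := LocallyOfFiniteType.isLocallyNoetherian f
  have : IsNoetherian A := {}
  have : JacobsonSpace A := LocallyOfFiniteType.jacobsonSpace f
  set S := irreducibleComponents A
  have hfin : S.Finite := NoetherianSpace.finite_irreducibleComponents
  obtain ⟨a₀⟩ : Nonempty A := inferInstance
  set Z₀ := irreducibleComponent a₀
  have hZ₀ : Z₀ ∈ S := irreducibleComponent_mem_irreducibleComponents a₀
  set W := ⋃₀ (S \ {Z₀})
  have hW : IsClosed W := by
    rw [show W = ⋃ Z ∈ S \ {Z₀}, Z from Set.sUnion_eq_biUnion]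
    exact hfin.sdiff.isClosed_biUnion fun Z hZ => isClosed_of_mem_irreducibleComponents Z hZ.1
  have hne : (Z₀ \ W).Nonempty := by
    by_contra h
    rw [Set.not_nonempty_iff_eq_empty, Set.sdiff_eq_empty] at h
    obtain ⟨Z, hZ, hZle⟩ :=
      isIrreducible_iff_sUnion_isClosed.mp hZ₀.1 hfin.sdiff.toFinset
        (fun Z hZ => isClosed_of_mem_irreducibleComponents Z
          ((Set.Finite.mem_toFinset _).mp hZ).1)
        (by rw [Set.Finite.coe_toFinset]; exact h)
    rw [Set.Finite.mem_toFinset] at hZ
    exact hZ.2 ((hZ₀.eq_of_ge hZ.1.1 hZle).symm ▸ Set.mem_singleton Z₀)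
  obtain ⟨x, ⟨hx₀, hxW⟩, hx⟩ := nonempty_inter_closedPoints hne
    ((isClosed_of_mem_irreducibleComponents _ hZ₀).isLocallyClosed.inter
      hW.isOpen_compl.isLocallyClosed)
  have huniq : ∀ Z ∈ S, ∀ Z' ∈ S, ∀ y : A, IsClosed {y} → y ∈ Z → y ∈ Z' → Z = Z' := by
    intro Z hZ Z' hZ' y hy hyZ hyZ'
    obtain ⟨p, hp⟩ := exists_translate_apply L hx hy
    let φ := (translateIso L p).hom.homeomorph
    have hφ : φ x = y := hp
    have key : ∀ Z ∈ S, y ∈ Z → φ ⁻¹' Z = Z₀ := fun Z hZ hyZ => by
      by_contra h
      exact hxW ⟨φ ⁻¹' Z, ⟨preimage_mem_irreducibleComponents hZ φ.isOpenEmbedding ⟨y, hyZ, φ.surjective y⟩, h⟩,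
        by rw [Set.mem_preimage, hφ]; exact hyZ⟩
    exact φ.surjective.preimage_injective ((key Z hZ hyZ).trans (key Z' hZ' hyZ').symm)
  have hclopen : IsClopen Z₀ := by
    refine ⟨isClosed_of_mem_irreducibleComponents _ hZ₀, ?_⟩
    rw [show Z₀ = Wᶜ from ?_]
    · exact hW.isOpen_compl
    · refine Set.Subset.antisymm (fun z hz hzW => ?_) fun z hz => ?_
      · obtain ⟨Z, hZ, hzZ⟩ := hzW
        obtain ⟨y, ⟨hyZ, hyZ₀⟩, hy⟩ := nonempty_inter_closedPoints
          (⟨z, hzZ, hz⟩ : (Z ∩ Z₀).Nonempty)
          ((isClosed_of_mem_irreducibleComponents _ hZ.1).inter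
            (isClosed_of_mem_irreducibleComponents _ hZ₀)).isLocallyClosed
        exact hZ.2 (huniq Z hZ.1 Z₀ hZ₀ y hy hyZ hyZ₀)
      · by_contra h
        exact hz ⟨irreducibleComponent z,
          ⟨irreducibleComponent_mem_irreducibleComponents z, fun e => h (by
            rw [← Set.mem_singleton_iff.mp e]; exact mem_irreducibleComponent)⟩,
          mem_irreducibleComponent⟩
  have huniv := (isClopen_iff.mp hclopen).resolve_left hZ₀.1.nonempty.ne_empty
  refine (irreducibleSpace_def A).mpr ?_
  have h := hZ₀.1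
  rwa [huniv] at h

/-- A product of irreducible schemes of finite type over an algebraically closed field is
irreducible. -/
theorem irreducibleSpace_prod {X Y : Scheme.{u}} (a : X ⟶ Spec (CommRingCat.of K))
    (b : Y ⟶ Spec (CommRingCat.of K)) [LocallyOfFinitePresentation a] [Flat a]
    [LocallyOfFiniteType b] [IrreducibleSpace X] [IrreducibleSpace Y] :
    IrreducibleSpace (pullback a b : Scheme.{u}) := by
  have : JacobsonSpace X := LocallyOfFiniteType.jacobsonSpace a
  have : JacobsonSpace Y := LocallyOfFiniteType.jacobsonSpace b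
  have hopen : IsOpenMap (pullback.snd a b) := (pullback.snd a b).isOpenMap
  have : Nonempty (pullback a b : Scheme.{u}) := by
    obtain ⟨x⟩ : Nonempty X := inferInstance
    obtain ⟨y⟩ : Nonempty Y := inferInstance
    obtain ⟨z, -, -⟩ := Scheme.Pullback.exists_preimage_pullback (f := a) (g := b) x y
      (Subsingleton.elim _ _)
    exact ⟨z⟩
  have : PreirreducibleSpace (pullback a b : Scheme.{u}) := by
    refine ⟨fun U V hU hV ⟨u, _, hu⟩ ⟨v, _, hv⟩ => ?_⟩
    obtain ⟨y, ⟨hyU, hyV⟩, hy⟩ := nonempty_inter_closedPoints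
      (nonempty_preirreducible_inter (hopen U hU) (hopen V hV) ⟨_, u, hu, rfl⟩ ⟨_, v, hv, rfl⟩)
      ((hopen U hU).inter (hopen V hV)).isLocallyClosed
    replace hy : IsClosed {y} := hy
    let j : X ⟶ pullback a b := pullback.lift (𝟙 X) (a ≫ pointOfClosedPoint b y hy)
      (by rw [Category.assoc, pointOfClosedPoint_comp, Category.id_comp, Category.comp_id])
    have hfib : ∀ w : (pullback a b : Scheme.{u}), pullback.snd a b w = y → w ∈ Set.range j := by
      intro w hw
      have hsq : IsPullback j a (pullback.snd a b) (pointOfClosedPoint b y hy) := by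
        refine IsPullback.of_right (h₁₂ := pullback.fst a b) (v₁₃ := a) (h₂₂ := b) ?_
          (pullback.lift_snd _ _ _) (IsPullback.of_hasPullback a b)
        have h1 : j ≫ pullback.fst a b = 𝟙 X := pullback.lift_fst _ _ _
        have h2 : pointOfClosedPoint b y hy ≫ b = 𝟙 _ := pointOfClosedPoint_comp b y hy
        rw [h1, h2]
        exact IsPullback.of_horiz_isIso ⟨by simp⟩
      obtain ⟨z, hz, -⟩ := Scheme.Pullback.exists_preimage_pullback (f := pullback.snd a b)
        (g := pointOfClosedPoint b y hy) w (basePt K) (by rw [hw, pointOfClosedPoint_apply b y hy])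
      refine ⟨hsq.isoPullback.inv z, ?_⟩
      rw [← Scheme.Hom.comp_apply, hsq.isoPullback_inv_fst, hz]
    obtain ⟨u', hu', hu''⟩ := hyU
    obtain ⟨v', hv', hv''⟩ := hyV
    obtain ⟨x, rfl⟩ := hfib u' hu''
    obtain ⟨x', rfl⟩ := hfib v' hv''
    obtain ⟨z, hz⟩ := nonempty_preirreducible_inter (hU.preimage j.continuous)
      (hV.preimage j.continuous) ⟨x, hu'⟩ ⟨x', hv'⟩
    exact ⟨j z, trivial, hz⟩
  constructor
  infer_instance

end FLTAgent.AbScheme
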