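import Fermat.Agent.AbScheme.Defs

/-!
Points of a relative group law: powers, translations, and the points given by morphisms.
-/

set_option autoImplicit false
set_option linter.unusedSectionVars false

noncomputable section

universe u

namespace FLTAgent.AbScheme

open CategoryTheory CategoryTheory.Limits AlgebraicGeometry NeronModelInfra GoodReductionJacobian

variable {K : Type u} [CommRing K] {A : Scheme.{u}} {f : A ⟶ Spec (CommRingCat.of K)}
  (L : RelativeGroupLaw K f)

theorem nsmul_eq_pow {T : Scheme.{u}} (t : T ⟶ Spec (CommRingCat.of K)) (n : ℕ)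
    (x : SchemeHomOver t f) :
    L.nsmul t n x = (L.pointGroup t).toMonoid.npow n x := by
  let := L.pointGroup t
  show L.nsmul t n x = x ^ n
  induction n with
  | zero => rw [pow_zero]; rfl
  | succ n ih => rw [pow_succ, ← ih]; rfl

theorem nsmul_mul (hc : L.IsCommutative) {T : Scheme.{u}} (t : T ⟶ Spec (CommRingCat.of K)) (n : ℕ)
    (x y : SchemeHomOver t f) :
    L.nsmul t n (L.mul t x y) = L.mul t (L.nsmul t n x) (L.nsmul t n y) := by
  let := L.pointGroup t
  simp only [nsmul_eq_pow]
  exact Commute.mul_pow (hc t x y) n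

theorem coe_nsmul {T : Scheme.{u}} (t : T ⟶ Spec (CommRingCat.of K)) (n : ℕ)
    (x : SchemeHomOver t f) : (L.nsmul t n x).1 = x.1 ≫ L.schemeNsmul n := by
  have h := L.nsmul_natural f t x.1 x.2 n RelativeGroupLaw.idPoint
  have e : schemeHomOverComp x.1 x.2 (RelativeGroupLaw.idPoint (f := f)) = x :=
    Subtype.ext (Category.comp_id x.1)
  rw [e] at h
  rw [← h]; rfl

/-- The constant point at a point of the base. -/
def constPoint {T : Scheme.{u}} (t : T ⟶ Spec (CommRingCat.of K))
    (p : SchemeHomOver (𝟙 (Spec (CommRingCat.of K))) f) : SchemeHomOver t f :=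
  schemeHomOverComp t (Category.comp_id t) p

theorem constPoint_mul {T : Scheme.{u}} (t : T ⟶ Spec (CommRingCat.of K))
    (p q : SchemeHomOver (𝟙 (Spec (CommRingCat.of K))) f) :
    constPoint t (L.mul _ p q) = L.mul t (constPoint t p) (constPoint t q) :=
  L.mul_natural _ _ _ _ _ _

theorem constPoint_one {T : Scheme.{u}} (t : T ⟶ Spec (CommRingCat.of K)) :
    constPoint t (L.one (𝟙 (Spec (CommRingCat.of K)))) = L.one t :=
  L.one_natural _ _ _ _

theorem constPoint_comp {T T' : Scheme.{u}} (t : T ⟶ Spec (CommRingCat.of K))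
    (t' : T' ⟶ Spec (CommRingCat.of K)) (ψ : T' ⟶ T) (hψ : ψ ≫ t = t')
    (p : SchemeHomOver (𝟙 (Spec (CommRingCat.of K))) f) :
    schemeHomOverComp ψ hψ (constPoint t p) = constPoint t' p :=
  Subtype.ext (by
    show ψ ≫ t ≫ p.1 = t' ≫ p.1
    rw [← Category.assoc, hψ])

theorem coe_one {T : Scheme.{u}} (t : T ⟶ Spec (CommRingCat.of K)) :
    (L.one t).1 = t ≫ (L.one (𝟙 (Spec (CommRingCat.of K)))).1 := by
  rw [← constPoint_one L t]; rfl

/-- Right translation. -/
def translate (p : SchemeHomOver (𝟙 (Spec (CommRingCat.of K))) f) : A ⟶ A :=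
  (L.mul f RelativeGroupLaw.idPoint (constPoint f p)).1

@[reassoc]
theorem translate_over (p : SchemeHomOver (𝟙 (Spec (CommRingCat.of K))) f) :
    translate L p ≫ f = f :=
  (L.mul f RelativeGroupLaw.idPoint (constPoint f p)).2

theorem comp_translate {T : Scheme.{u}} (t : T ⟶ Spec (CommRingCat.of K)) (x : SchemeHomOver t f)
    (p : SchemeHomOver (𝟙 (Spec (CommRingCat.of K))) f) :
    x.1 ≫ translate L p = (L.mul t x (constPoint t p)).1 := by
  have h := congrArg Subtype.val
    (L.mul_natural f t x.1 x.2 RelativeGroupLaw.idPoint (constPoint f p))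
  rw [constPoint_comp f t x.1 x.2,
    show schemeHomOverComp x.1 x.2 (RelativeGroupLaw.idPoint (f := f)) = x from
      Subtype.ext (Category.comp_id x.1)] at h
  exact h

theorem translate_comp_translate (p q : SchemeHomOver (𝟙 (Spec (CommRingCat.of K))) f) :
    translate L p ≫ translate L q = translate L (L.mul _ p q) := by
  refine (comp_translate L f (L.mul f RelativeGroupLaw.idPoint (constPoint f p)) q).trans ?_
  rw [L.mul_assoc, ← constPoint_mul]
  rfl

theorem translate_one : translate L (L.one (𝟙 (Spec (CommRingCat.of K)))) = 𝟙 A := by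
  rw [translate, constPoint_one, L.mul_one]

/-- Translation as an automorphism. -/
def translateIso (p : SchemeHomOver (𝟙 (Spec (CommRingCat.of K))) f) : A ≅ A where
  hom := translate L p
  inv := translate L (L.inv _ p)
  hom_inv_id := by rw [translate_comp_translate, L.mul_inv_cancel, translate_one]
  inv_hom_id := by rw [translate_comp_translate, L.inv_mul_cancel, translate_one]

end FLTAgent.AbScheme
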