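import Fermat.Agent.AbScheme.Group.Integral

/-!
Points near the unit under square zero thickenings: the group law adds them, so multiplication by an
invertible integer is bijective on them.
-/

set_option autoImplicit false
set_option linter.unusedSectionVars false

noncomputable section

universe u

namespace FLTAgent.AbScheme

open CategoryTheory CategoryTheory.Limits AlgebraicGeometry NeronModelInfra GoodReductionJacobian

section Chart

variable {X : Scheme.{u}} {W : X.Opens} (hW : IsAffineOpen W)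

/-- A point with values in an affine open comes from a ring map. -/
theorem exists_chart {R : CommRingCat.{u}} (g : Spec R ⟶ X) (hg : ∀ s, g s ∈ W) :
    ∃ φ : Γ(X, W) ⟶ R, Spec.map φ ≫ hW.fromSpec = g := by
  refine ⟨Spec.preimage (IsOpenImmersion.lift hW.fromSpec g ?_), ?_⟩
  · rw [hW.range_fromSpec]
    rintro _ ⟨s, rfl⟩
    exact hg s
  · rw [Spec.map_preimage, IsOpenImmersion.lift_fac]

theorem chart_injective {R : CommRingCat.{u}} {φ ψ : Γ(X, W) ⟶ R}
    (h : Spec.map φ ≫ hW.fromSpec = Spec.map ψ ≫ hW.fromSpec) : φ = ψ :=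
  Spec.map_injective ((cancel_mono hW.fromSpec).mp h)

theorem chart_mem {R : CommRingCat.{u}} (φ : Γ(X, W) ⟶ R) (s : Spec R) :
    (Spec.map φ ≫ hW.fromSpec) s ∈ W := by
  have : hW.fromSpec (Spec.map φ s) ∈ Set.range hW.fromSpec := ⟨_, rfl⟩
  rw [hW.range_fromSpec] at this
  exact this

end Chart

/-- A square zero thickening is surjective on points. -/
theorem surjective_specMap_of_sq_zero {R R₀ : CommRingCat.{u}} (q : R ⟶ R₀)
    (hq : Function.Surjective q.hom) (hI : RingHom.ker q.hom ^ 2 = ⊥) :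
    Function.Surjective (Spec.map q) := by
  intro s
  have hs : s ∈ PrimeSpectrum.zeroLocus (RingHom.ker q.hom : Set R) := by
    refine fun r hr => s.2.mem_of_pow_mem 2 ?_
    have h : r ^ 2 = 0 := by
      rw [← Ideal.mem_bot, ← hI]
      exact Ideal.pow_mem_pow hr 2
    rw [h]
    exact zero_mem _
  rw [← range_comap_of_surjective _ q.hom hq] at hs
  obtain ⟨s₀, hs₀⟩ := hs
  exact ⟨s₀, hs₀⟩

section Triple

variable {R : Type u} [CommRing R] (I : Ideal R)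

/-- Triples with equal images modulo an ideal. -/
def triple : Subring (R × R × R) :=
  ((Ideal.Quotient.mk I).comp (RingHom.fst R (R × R))).eqLocus
      ((Ideal.Quotient.mk I).comp ((RingHom.fst R R).comp (RingHom.snd R (R × R)))) ⊓
    ((Ideal.Quotient.mk I).comp ((RingHom.snd R R).comp (RingHom.snd R (R × R)))).eqLocus
      ((Ideal.Quotient.mk I).comp ((RingHom.fst R R).comp (RingHom.snd R (R × R))))

theorem mem_triple {a : R × R × R} :
    a ∈ triple I ↔ a.1 - a.2.1 ∈ I ∧ a.2.2 - a.2.1 ∈ I := by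
  show Ideal.Quotient.mk I a.1 = Ideal.Quotient.mk I a.2.1 ∧
    Ideal.Quotient.mk I a.2.2 = Ideal.Quotient.mk I a.2.1 ↔ _
  rw [Ideal.Quotient.eq, Ideal.Quotient.eq]

theorem mul_eq_zero_of_sq {I : Ideal R} (hI : I ^ 2 = ⊥) {a b : R} (ha : a ∈ I) (hb : b ∈ I) :
    a * b = 0 := by
  rw [← Ideal.mem_bot, ← hI, pow_two]
  exact Ideal.mul_mem_mul ha hb

/-- Sum of the outer entries minus the middle one. -/
def tripleSum (hI : I ^ 2 = ⊥) : triple I →+* R where
  toFun a := a.1.1 + a.1.2.2 - a.1.2.1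
  map_one' := by simp
  map_zero' := by simp
  map_add' a b := by
    show a.1.1 + b.1.1 + (a.1.2.2 + b.1.2.2) - (a.1.2.1 + b.1.2.1) = _
    ring
  map_mul' a b := by
    obtain ⟨⟨a₁, a₂, a₃⟩, ha⟩ := a
    obtain ⟨⟨b₁, b₂, b₃⟩, hb⟩ := b
    obtain ⟨ha₁, ha₃⟩ := (mem_triple I).mp ha
    obtain ⟨hb₁, hb₃⟩ := (mem_triple I).mp hb
    show a₁ * b₁ + a₃ * b₃ - a₂ * b₂ = (a₁ + a₃ - a₂) * (b₁ + b₃ - b₂)
    linear_combination (-1 : R) * mul_eq_zero_of_sq hI ha₁ hb₃ - mul_eq_zero_of_sq hI ha₃ hb₁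

end Triple

variable {K : Type u} [Field K] {A : Scheme.{u}} {f : A ⟶ Spec (CommRingCat.of K)}
  (L : RelativeGroupLaw K f)
  {W : A.Opens} (hW : IsAffineOpen W)

/-- The unit lies in `W`. -/
abbrev UnitIn (W : A.Opens) : Prop := (L.one (𝟙 (Spec (CommRingCat.of K)))).1 (basePt K) ∈ W

/-- A point near the unit in the chart. -/
theorem exists_chart_of_near (he : UnitIn L W) {R R₀ : CommRingCat.{u}} (q : R ⟶ R₀)
    (hq : Function.Surjective q.hom) (hI : RingHom.ker q.hom ^ 2 = ⊥)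
    (t : Spec R ⟶ Spec (CommRingCat.of K)) (x : Spec R ⟶ A)
    (hx : Spec.map q ≫ x = Spec.map q ≫ (L.one t).1) :
    ∃ φ : Γ(A, W) ⟶ R, Spec.map φ ≫ hW.fromSpec = x := by
  refine exists_chart hW x fun s => ?_
  obtain ⟨s₀, rfl⟩ := surjective_specMap_of_sq_zero q hq hI s
  have h : x (Spec.map q s₀) = (L.one t).1 (Spec.map q s₀) :=
    congrArg (fun m : Spec R₀ ⟶ A => m s₀) hx
  rw [h, coe_one L t]
  show (L.one (𝟙 (Spec (CommRingCat.of K)))).1 (t (Spec.map q s₀)) ∈ W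
  rw [Subsingleton.elim (t (Spec.map q s₀)) (basePt K)]
  exact he

theorem comp_one {T T' : Scheme.{u}} (t : T ⟶ Spec (CommRingCat.of K))
    (t' : T' ⟶ Spec (CommRingCat.of K)) (ψ : T' ⟶ T) (hψ : ψ ≫ t = t') :
    ψ ≫ (L.one t).1 = (L.one t').1 :=
  congrArg Subtype.val (L.one_natural t t' ψ hψ)

theorem comp_mul {T T' : Scheme.{u}} (t : T ⟶ Spec (CommRingCat.of K))
    (t' : T' ⟶ Spec (CommRingCat.of K)) (ψ : T' ⟶ T) (hψ : ψ ≫ t = t') (x y : SchemeHomOver t f) :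
    ψ ≫ (L.mul t x y).1 =
      (L.mul t' (schemeHomOverComp ψ hψ x) (schemeHomOverComp ψ hψ y)).1 :=
  congrArg Subtype.val (L.mul_natural t t' ψ hψ x y)

/-- **The group law adds points near the unit.** -/
theorem chart_mul (he : UnitIn L W) {R R₀ : CommRingCat.{u}} (q : R ⟶ R₀)
    (hq : Function.Surjective q.hom) (hI : RingHom.ker q.hom ^ 2 = ⊥)
    {τ : CommRingCat.of K ⟶ R} {x y : SchemeHomOver (Spec.map τ) f}
    {φ ψ ε : Γ(A, W) ⟶ R} (hφ : Spec.map φ ≫ hW.fromSpec = x.1)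
    (hψ : Spec.map ψ ≫ hW.fromSpec = y.1)
    (hε : Spec.map ε ≫ hW.fromSpec = (L.one (Spec.map τ)).1)
    (hx : Spec.map q ≫ x.1 = Spec.map q ≫ (L.one (Spec.map τ)).1)
    (hy : Spec.map q ≫ y.1 = Spec.map q ≫ (L.one (Spec.map τ)).1) :
    ∃ χ : Γ(A, W) ⟶ R, Spec.map χ ≫ hW.fromSpec = (L.mul (Spec.map τ) x y).1 ∧
      ∀ r, χ.hom r = φ.hom r + ψ.hom r - ε.hom r := by
  set κ := Spec.preimage (hW.fromSpec ≫ f)
  have hκ : ∀ (χ : Γ(A, W) ⟶ R) (z : SchemeHomOver (Spec.map τ) f),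
      Spec.map χ ≫ hW.fromSpec = z.1 → κ ≫ χ = τ := fun χ z hz => Spec.map_injective (by
    rw [Spec.map_comp, Spec.map_preimage, ← Category.assoc, hz, z.2])
  have hres : ∀ (χ : Γ(A, W) ⟶ R) (z : Spec R ⟶ A), Spec.map χ ≫ hW.fromSpec = z →
      Spec.map q ≫ z = Spec.map q ≫ (L.one (Spec.map τ)).1 → χ ≫ q = ε ≫ q := fun χ z hz h =>
    chart_injective hW (by
      rw [Spec.map_comp, Category.assoc, hz, h, Spec.map_comp, Category.assoc, hε])
  set I := RingHom.ker q.hom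
  have hmem : ∀ (χ : Γ(A, W) ⟶ R), χ ≫ q = ε ≫ q → ∀ r, χ.hom r - ε.hom r ∈ I := fun χ h r => by
    rw [RingHom.mem_ker, map_sub, sub_eq_zero]
    exact congrArg (fun m : Γ(A, W) ⟶ R₀ => m.hom r) h
  have hφI := hmem φ (hres φ x.1 hφ hx)
  have hψI := hmem ψ (hres ψ y.1 hψ hy)
  let S : CommRingCat.{u} := CommRingCat.of (triple I)
  let p₁ : S ⟶ R := CommRingCat.ofHom ((RingHom.fst R (R × R)).comp (triple I).subtype)
  let p₂ : S ⟶ R := CommRingCat.ofHom
    ((RingHom.fst R R).comp ((RingHom.snd R (R × R)).comp (triple I).subtype))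
  let p₃ : S ⟶ R := CommRingCat.ofHom
    ((RingHom.snd R R).comp ((RingHom.snd R (R × R)).comp (triple I).subtype))
  let σ : S ⟶ R := CommRingCat.ofHom (tripleSum I hI)
  let Φ : Γ(A, W) ⟶ S := CommRingCat.ofHom
    ((φ.hom.prod (ε.hom.prod ε.hom)).codRestrict (triple I) fun r =>
      (mem_triple I).mpr ⟨hφI r, by simp⟩)
  let Ψ : Γ(A, W) ⟶ S := CommRingCat.ofHom
    ((ε.hom.prod (ε.hom.prod ψ.hom)).codRestrict (triple I) fun r =>
      (mem_triple I).mpr ⟨by simp, hψI r⟩)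
  let τ' : CommRingCat.of K ⟶ S := CommRingCat.ofHom
    ((τ.hom.prod (τ.hom.prod τ.hom)).codRestrict (triple I) fun r =>
      (mem_triple I).mpr ⟨by simp, by simp⟩)
  have hk : ∀ (χ : Γ(A, W) ⟶ R), κ ≫ χ = τ → ∀ k, χ.hom (κ.hom k) = τ.hom k := fun χ h k =>
    congrArg (fun m : CommRingCat.of K ⟶ R => m.hom k) h
  have eΦ : κ ≫ Φ = τ' := by
    ext k
    exacts [hk φ (hκ φ x hφ) k, hk ε (hκ ε _ hε) k, hk ε (hκ ε _ hε) k]
  have eΨ : κ ≫ Ψ = τ' := by
    ext k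
    exacts [hk ε (hκ ε _ hε) k, hk ε (hκ ε _ hε) k, hk ψ (hκ ψ y hψ) k]
  let X : SchemeHomOver (Spec.map τ') f := ⟨Spec.map Φ ≫ hW.fromSpec, by
    rw [Category.assoc, show hW.fromSpec ≫ f = Spec.map κ from (Spec.map_preimage _).symm,
      ← Spec.map_comp, eΦ]⟩
  let Y : SchemeHomOver (Spec.map τ') f := ⟨Spec.map Ψ ≫ hW.fromSpec, by
    rw [Category.assoc, show hW.fromSpec ≫ f = Spec.map κ from (Spec.map_preimage _).symm,
      ← Spec.map_comp, eΨ]⟩
  set P := L.mul (Spec.map τ') X Y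
  -- the restrictions of `P`
  have hproj : ∀ (π : S ⟶ R) (a b : Γ(A, W) ⟶ R) (z w : SchemeHomOver (Spec.map τ) f),
      Φ ≫ π = a → Ψ ≫ π = b → Spec.map a ≫ hW.fromSpec = z.1 → Spec.map b ≫ hW.fromSpec = w.1 →
      τ' ≫ π = τ → Spec.map π ≫ P.1 = (L.mul (Spec.map τ) z w).1 := by
    intro π a b z w ha hb hz hw hτ
    have hπ : Spec.map π ≫ Spec.map τ' = Spec.map τ := by rw [← Spec.map_comp, hτ]
    rw [comp_mul L _ _ _ hπ]
    have e1 : schemeHomOverComp (Spec.map π) hπ X = z := Subtype.ext (by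
      show Spec.map π ≫ Spec.map Φ ≫ hW.fromSpec = z.1
      rw [← Category.assoc, ← Spec.map_comp, ha, hz])
    have e2 : schemeHomOverComp (Spec.map π) hπ Y = w := Subtype.ext (by
      show Spec.map π ≫ Spec.map Ψ ≫ hW.fromSpec = w.1
      rw [← Category.assoc, ← Spec.map_comp, hb, hw])
    rw [e1, e2]
  -- `P` is near the unit
  let q' : S ⟶ R₀ := p₂ ≫ q
  have hq' : Function.Surjective q'.hom := fun r₀ => by
    obtain ⟨r, hr⟩ := hq r₀
    exact ⟨⟨(r, r, r), (mem_triple I).mpr ⟨by simp, by simp⟩⟩, hr⟩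
  have hI' : RingHom.ker q'.hom ^ 2 = ⊥ := by
    rw [pow_two, ← le_bot_iff, Ideal.mul_le]
    rintro ⟨⟨a₁, a₂, a₃⟩, ha⟩ ha' ⟨⟨b₁, b₂, b₃⟩, hb⟩ hb'
    have ha₂ : a₂ ∈ I := ha'
    have hb₂ : b₂ ∈ I := hb'
    obtain ⟨ha₁, ha₃⟩ := (mem_triple I).mp ha
    obtain ⟨hb₁, hb₃⟩ := (mem_triple I).mp hb
    have hall : ∀ {u v : R}, v ∈ I → u - v ∈ I → u ∈ I := fun hv h => by
      simpa using add_mem h hv
    refine Ideal.mem_bot.mpr (Subtype.ext (Prod.ext ?_ (Prod.ext ?_ ?_)))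
    · exact mul_eq_zero_of_sq hI (hall ha₂ ha₁) (hall hb₂ hb₁)
    · exact mul_eq_zero_of_sq hI ha₂ hb₂
    · exact mul_eq_zero_of_sq hI (hall ha₂ ha₃) (hall hb₂ hb₃)
  have hP₂ : Spec.map p₂ ≫ P.1 = (L.one (Spec.map τ)).1 := by
    rw [hproj p₂ ε ε (L.one _) (L.one _) rfl rfl hε hε rfl, L.mul_one]
  obtain ⟨χ', hχ'⟩ := exists_chart_of_near L hW he q' hq' hI' (Spec.map τ') P.1 (by
    show Spec.map (p₂ ≫ q) ≫ P.1 = Spec.map (p₂ ≫ q) ≫ _
    rw [Spec.map_comp, Category.assoc, Category.assoc, hP₂,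
      comp_one L _ _ _ (show Spec.map p₂ ≫ Spec.map τ' = Spec.map τ by rw [← Spec.map_comp]; rfl)])
  refine ⟨χ' ≫ σ, ?_, fun r => ?_⟩
  · rw [Spec.map_comp, Category.assoc, hχ',
      hproj σ φ ψ x y (by ext r; show φ.hom r + ε.hom r - ε.hom r = φ.hom r; ring)
        (by ext r; show ε.hom r + ψ.hom r - ε.hom r = ψ.hom r; ring) hφ hψ
        (by ext r; show τ.hom r + τ.hom r - τ.hom r = τ.hom r; ring)]
  · have h1 : χ' ≫ p₁ = φ := chart_injective hW (by
      rw [Spec.map_comp, Category.assoc, hχ', hproj p₁ φ ε x (L.one _) rfl rfl hφ hε rfl,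
        L.mul_one, hφ])
    have h3 : χ' ≫ p₃ = ψ := chart_injective hW (by
      rw [Spec.map_comp, Category.assoc, hχ', hproj p₃ ε ψ (L.one _) y rfl rfl hε hψ rfl,
        L.one_mul, hψ])
    have h2 : χ' ≫ p₂ = ε := chart_injective hW (by rw [Spec.map_comp, Category.assoc, hχ', hP₂, hε])
    show (χ'.hom r).1.1 + (χ'.hom r).1.2.2 - (χ'.hom r).1.2.1 = _
    rw [← h1, ← h2, ← h3]
    rfl

/-- Multiples of a point near the unit. -/
theorem chart_nsmul (he : UnitIn L W) {R R₀ : CommRingCat.{u}} (q : R ⟶ R₀)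
    (hq : Function.Surjective q.hom) (hI : RingHom.ker q.hom ^ 2 = ⊥)
    {τ : CommRingCat.of K ⟶ R} {x : SchemeHomOver (Spec.map τ) f}
    {φ ε : Γ(A, W) ⟶ R} (hφ : Spec.map φ ≫ hW.fromSpec = x.1)
    (hε : Spec.map ε ≫ hW.fromSpec = (L.one (Spec.map τ)).1)
    (hx : Spec.map q ≫ x.1 = Spec.map q ≫ (L.one (Spec.map τ)).1) (n : ℕ) :
    Spec.map q ≫ (L.nsmul (Spec.map τ) n x).1 = Spec.map q ≫ (L.one (Spec.map τ)).1 ∧
    ∃ χ : Γ(A, W) ⟶ R, Spec.map χ ≫ hW.fromSpec = (L.nsmul (Spec.map τ) n x).1 ∧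
      ∀ r, χ.hom r = ε.hom r + (n : R) * (φ.hom r - ε.hom r) := by
  induction n with
  | zero => exact ⟨rfl, ε, hε, fun r => by simp⟩
  | succ n ih =>
    obtain ⟨hn, χ, hχ, hχr⟩ := ih
    refine ⟨?_, ?_⟩
    · show Spec.map q ≫ (L.mul _ (L.nsmul _ n x) x).1 = _
      rw [comp_mul L _ (Spec.map q ≫ Spec.map τ) _ rfl]
      have e1 : schemeHomOverComp (t' := Spec.map q ≫ Spec.map τ) (Spec.map q) rfl
          (L.nsmul (Spec.map τ) n x) = L.one _ :=
        Subtype.ext (hn.trans (comp_one L _ _ _ rfl))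
      have e2 : schemeHomOverComp (t' := Spec.map q ≫ Spec.map τ) (Spec.map q) rfl x = L.one _ :=
        Subtype.ext (hx.trans (comp_one L _ _ _ rfl))
      rw [e1, e2, L.mul_one, comp_one L _ _ _ rfl]
    · obtain ⟨χ', hχ', hr⟩ := chart_mul L hW he q hq hI hχ hφ hε hn hx
      exact ⟨χ', hχ', fun r => by rw [hr, hχr]; push_cast; ring⟩

variable {L} in
/-- **Multiplication by an invertible integer is injective near the unit.** -/
theorem eq_one_of_nsmul_eq_one {n : ℕ} (hn0 : (n : K) ≠ 0) {R R₀ : CommRingCat.{u}} (q : R ⟶ R₀)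
    (hq : Function.Surjective q.hom) (hI : RingHom.ker q.hom ^ 2 = ⊥)
    {τ : CommRingCat.of K ⟶ R} {x : SchemeHomOver (Spec.map τ) f}
    (hx : Spec.map q ≫ x.1 = Spec.map q ≫ (L.one (Spec.map τ)).1)
    (h : L.nsmul (Spec.map τ) n x = L.one (Spec.map τ)) : x = L.one (Spec.map τ) := by
  obtain ⟨_, ⟨W, hW, rfl⟩, he, -⟩ := A.isBasis_affineOpens.exists_subset_of_mem_open
    (Set.mem_univ ((L.one (𝟙 (Spec (CommRingCat.of K)))).1 (basePt K))) isOpen_univ
  obtain ⟨φ, hφ⟩ := exists_chart_of_near L hW he q hq hI _ x.1 hx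
  obtain ⟨ε, hε⟩ := exists_chart_of_near L hW he q hq hI _ _ (rfl :
    Spec.map q ≫ (L.one (Spec.map τ)).1 = _)
  obtain ⟨-, χ, hχ, hr⟩ := chart_nsmul L hW he q hq hI hφ hε hx n
  have hχε : χ = ε := chart_injective hW (by rw [hχ, hε, h])
  have hu : IsUnit ((n : R) : R) := by
    have := (isUnit_iff_ne_zero.mpr hn0).map τ.hom
    rwa [map_natCast] at this
  have e : φ = ε := by
    ext r
    have h1 := hr r
    rw [hχε, eq_comm, add_eq_left, hu.mul_right_eq_zero, sub_eq_zero] at h1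
    exact h1
  exact Subtype.ext (by rw [← hφ, e, hε])

variable {L} in
/-- **Multiplication by an invertible integer is surjective near the unit.** -/
theorem exists_nsmul_eq {n : ℕ} (hn0 : (n : K) ≠ 0) {R R₀ : CommRingCat.{u}} (q : R ⟶ R₀)
    (hq : Function.Surjective q.hom) (hI : RingHom.ker q.hom ^ 2 = ⊥)
    {τ : CommRingCat.of K ⟶ R} {y : SchemeHomOver (Spec.map τ) f}
    (hy : Spec.map q ≫ y.1 = Spec.map q ≫ (L.one (Spec.map τ)).1) :
    ∃ x : SchemeHomOver (Spec.map τ) f,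
      Spec.map q ≫ x.1 = Spec.map q ≫ (L.one (Spec.map τ)).1 ∧ L.nsmul (Spec.map τ) n x = y := by
  obtain ⟨_, ⟨W, hW, rfl⟩, he, -⟩ := A.isBasis_affineOpens.exists_subset_of_mem_open
    (Set.mem_univ ((L.one (𝟙 (Spec (CommRingCat.of K)))).1 (basePt K))) isOpen_univ
  obtain ⟨ψ, hψ⟩ := exists_chart_of_near L hW he q hq hI _ y.1 hy
  obtain ⟨ε, hε⟩ := exists_chart_of_near L hW he q hq hI _ _ (rfl :
    Spec.map q ≫ (L.one (Spec.map τ)).1 = _)
  have hres : ψ ≫ q = ε ≫ q := chart_injective hW (by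
    rw [Spec.map_comp, Category.assoc, hψ, hy, Spec.map_comp, Category.assoc, hε])
  have hD : ∀ r, ψ.hom r - ε.hom r ∈ RingHom.ker q.hom := fun r => by
    rw [RingHom.mem_ker, map_sub, sub_eq_zero]
    exact congrArg (fun m : Γ(A, W) ⟶ R₀ => m.hom r) hres
  set c : R := τ.hom ((n : K)⁻¹)
  have hc : (n : R) * c = 1 := by
    rw [← map_natCast τ.hom, ← map_mul, mul_inv_cancel₀ hn0, map_one]
  let φ : Γ(A, W) ⟶ R := CommRingCat.ofHom
    { toFun := fun r => ε.hom r + c * (ψ.hom r - ε.hom r)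
      map_one' := by simp
      map_zero' := by simp
      map_add' := fun a b => by simp only [map_add]; ring
      map_mul' := fun a b => by
        simp only [map_mul]
        linear_combination (c - c ^ 2) * mul_eq_zero_of_sq hI (hD a) (hD b) }
  set κ := Spec.preimage (hW.fromSpec ≫ f)
  have hκε : κ ≫ ε = τ := Spec.map_injective (by
    rw [Spec.map_comp, Spec.map_preimage, ← Category.assoc, hε, (L.one _).2])
  have hκψ : κ ≫ ψ = τ := Spec.map_injective (by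
    rw [Spec.map_comp, Spec.map_preimage, ← Category.assoc, hψ, y.2])
  have hκφ : κ ≫ φ = τ := by
    ext k
    show ε.hom (κ.hom k) + c * (ψ.hom (κ.hom k) - ε.hom (κ.hom k)) = _
    rw [show ε.hom (κ.hom k) = τ.hom k from congrArg (fun m : CommRingCat.of K ⟶ R => m.hom k) hκε,
      show ψ.hom (κ.hom k) = τ.hom k from congrArg (fun m : CommRingCat.of K ⟶ R => m.hom k) hκψ,
      sub_self, mul_zero, add_zero]
  let x : SchemeHomOver (Spec.map τ) f := ⟨Spec.map φ ≫ hW.fromSpec, by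
    rw [Category.assoc, show hW.fromSpec ≫ f = Spec.map κ from (Spec.map_preimage _).symm,
      ← Spec.map_comp, hκφ]⟩
  have hx : Spec.map q ≫ x.1 = Spec.map q ≫ (L.one (Spec.map τ)).1 := by
    show Spec.map q ≫ Spec.map φ ≫ hW.fromSpec = _
    rw [← hε, ← Category.assoc, ← Category.assoc, ← Spec.map_comp, ← Spec.map_comp]
    congr 2
    ext r
    show q.hom (ε.hom r + c * (ψ.hom r - ε.hom r)) = q.hom (ε.hom r)
    rw [map_add, map_mul, RingHom.mem_ker.mp (hD r), mul_zero, add_zero]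
  obtain ⟨-, χ, hχ, hr⟩ := chart_nsmul L hW he q hq hI (φ := φ) (x := x) rfl hε hx n
  refine ⟨x, hx, Subtype.ext ?_⟩
  rw [← hχ, ← hψ]
  congr 2
  ext r
  rw [hr r]
  show ε.hom r + (n : R) * (ε.hom r + c * (ψ.hom r - ε.hom r) - ε.hom r) = ψ.hom r
  linear_combination (ψ.hom r - ε.hom r) * hc

end FLTAgent.AbScheme
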