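import Fermat.Agent.AbScheme.Group.Etale

/-!
The degree of multiplication by an invertible integer is the number of torsion points.
-/

set_option autoImplicit false
set_option linter.unusedSectionVars false

noncomputable section

universe u

namespace FLTAgent.AbScheme

open CategoryTheory CategoryTheory.Limits AlgebraicGeometry NeronModelInfra GoodReductionJacobian

variable {K : Type u} [Field K] [IsAlgClosed K]

/-- The degree of a finite etale scheme over an algebraically closed field counts its points. -/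
theorem finrank_eq_card_sections {P : Scheme.{u}} (s : P ⟶ Spec (CommRingCat.of K)) [IsFinite s]
    [Etale s] :
    s.finrank (basePt K) = Nat.card {p : Spec (CommRingCat.of K) ⟶ P // p ≫ s = 𝟙 _} := by
  have : IsAffine P := isAffine_of_isAffineHom s
  rw [Nat.card_congr (pointEquivClosedPoint s)]
  obtain ⟨φ, hφ⟩ : ∃ φ : CommRingCat.of K ⟶ Γ(P, ⊤), Spec.map φ = P.isoSpec.inv ≫ s :=
    ⟨Spec.preimage _, Spec.map_preimage _⟩
  have hfin : φ.hom.Finite := (IsFinite.SpecMap_iff φ).mp (by rw [hφ]; infer_instance)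
  have het : φ.hom.Etale := (HasRingHomProperty.Spec_iff (P := @Etale)).mp (by
    rw [hφ]; infer_instance)
  let := φ.hom.toAlgebra
  have : Module.Finite K Γ(P, ⊤) := hfin
  have : Algebra.Etale K Γ(P, ⊤) := het
  have : IsArtinianRing Γ(P, ⊤) := IsArtinianRing.of_finite K _
  have hflat : φ.hom.Flat := (inferInstance : Module.Flat K Γ(P, ⊤))
  have h1 : s.finrank (basePt K) = Module.finrank K Γ(P, ⊤) := by
    rw [← Scheme.Hom.finrank_comp_left_of_isIso P.isoSpec.inv s, ← hφ,
      Scheme.Hom.finrank_SpecMap_eq_finrank hfin hflat,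
      show φ.hom = algebraMap K Γ(P, ⊤) from rfl, RingHom.finrank_algebraMap]
    exact congrFun Module.rankAtStalk_eq_finrank_of_free _
  have : Fintype (PrimeSpectrum Γ(P, ⊤)) := Fintype.ofFinite _
  rw [h1, (Algebra.FormallyEtale.equivPiOfIsSepClosed K Γ(P, ⊤)).toLinearEquiv.finrank_eq,
    Module.finrank_pi, ← Nat.card_eq_fintype_card]
  have hcl : closedPoints P = Set.univ := Set.eq_univ_of_forall fun x => by
    have h : IsClosed ({P.isoSpec.hom x} : Set (PrimeSpectrum Γ(P, ⊤))) := isClosed_discrete _
    rw [mem_closedPoints_iff]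
    have h' := h.preimage P.isoSpec.hom.continuous
    have e : P.isoSpec.hom ⁻¹' {P.isoSpec.hom x} = {x} := Set.ext fun y => by
      simpa using P.isoSpec.hom.homeomorph.injective.eq_iff
    exact e ▸ h'
  rw [hcl, Nat.card_congr (Equiv.Set.univ P)]
  exact (Nat.card_congr P.isoSpec.hom.homeomorph.toEquiv).symm

variable {A : Scheme.{u}} {f : A ⟶ Spec (CommRingCat.of K)} (L : RelativeGroupLaw K f)

/-- Sections of the kernel are the torsion points. -/
def kerPointsEquiv (n : ℕ) :
    {p : Spec (CommRingCat.of K) ⟶ L.schemeKer n // p ≫ L.schemeKerStr n = 𝟙 _} ≃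
      {x : SchemeHomOver (𝟙 (Spec (CommRingCat.of K))) f //
        L.IsTorsionPoint (𝟙 (Spec (CommRingCat.of K))) n x} where
  toFun p :=
    ⟨⟨p.1 ≫ pullback.fst _ _, by
      have h := congrArg (· ≫ f) (pullback.condition (f := L.schemeNsmul n)
        (g := (L.one (𝟙 (Spec (CommRingCat.of K)))).1))
      simp only [Category.assoc, L.schemeNsmul_over,
        (L.one (𝟙 (Spec (CommRingCat.of K)))).2, Category.comp_id] at h
      rw [Category.assoc, h]
      exact p.2⟩, by
      apply Subtype.ext
      rw [coe_nsmul, Category.assoc, pullback.condition, ← Category.assoc]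
      exact (congrArg (· ≫ _) p.2).trans (Category.id_comp _)⟩
  invFun x :=
    ⟨pullback.lift x.1.1 (𝟙 _) (by
      rw [← coe_nsmul L (𝟙 _) n x.1, show L.nsmul (𝟙 _) n x.1 = L.one _ from x.2,
        Category.id_comp]), pullback.lift_snd _ _ _⟩
  left_inv p := Subtype.ext (pullback.hom_ext (pullback.lift_fst _ _ _)
    ((pullback.lift_snd _ _ _).trans p.2.symm))
  right_inv x := Subtype.ext (Subtype.ext (pullback.lift_fst _ _ _))

variable [IsProper f] [Smooth f]

variable {L}

theorem isFinite_of_invertible (hc : L.IsCommutative) {n : ℕ} (hn : (n : K) ≠ 0) :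
    IsFinite (L.schemeNsmul n) := by
  have := etale_of_invertible hc hn
  have := locallyQuasiFinite_of_etale (L.schemeNsmul n)
  have : IsProper (L.schemeNsmul n ≫ f) := by rw [L.schemeNsmul_over]; infer_instance
  have : IsProper (L.schemeNsmul n) := IsProper.of_comp _ f
  exact .of_isProper_of_locallyQuasiFinite _

theorem surjective_of_invertible [IsIntegral A] (hc : L.IsCommutative) {n : ℕ}
    (hn : (n : K) ≠ 0) : Surjective (L.schemeNsmul n) := by
  have := etale_of_invertible hc hn
  have := isFinite_of_invertible hc hn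
  refine ⟨Set.range_eq_univ.mp ?_⟩
  exact (isClopen_iff.mp ⟨(L.schemeNsmul n).isClosedMap.isClosed_range,
    (L.schemeNsmul n).isOpenMap.isOpen_range⟩).resolve_left (Set.range_nonempty _).ne_empty

theorem finrank_of_invertible [IsIntegral A] (hc : L.IsCommutative) {n : ℕ} (hn : (n : K) ≠ 0)
    (y : A) :
    (L.schemeNsmul n).finrank y =
      Nat.card {x : SchemeHomOver (𝟙 (Spec (CommRingCat.of K))) f //
        L.IsTorsionPoint (𝟙 (Spec (CommRingCat.of K))) n x} := by
  have := etale_of_invertible hc hn
  have := isFinite_of_invertible hc hn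
  rw [(L.schemeNsmul n).isLocallyConstant_finrank.apply_eq_of_preconnectedSpace y
      ((L.one (𝟙 (Spec (CommRingCat.of K)))).1 (basePt K)),
    ← Scheme.Hom.finrank_pullback_snd, finrank_eq_card_sections]
  exact Nat.card_congr (kerPointsEquiv L n)

theorem one_le_card_of_invertible [IsIntegral A] (hc : L.IsCommutative) {n : ℕ}
    (hn : (n : K) ≠ 0) :
    0 < Nat.card {x : SchemeHomOver (𝟙 (Spec (CommRingCat.of K))) f //
        L.IsTorsionPoint (𝟙 (Spec (CommRingCat.of K))) n x} := by
  have := etale_of_invertible hc hn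
  have := isFinite_of_invertible hc hn
  have := surjective_of_invertible hc hn
  obtain ⟨y⟩ : Nonempty A := inferInstance
  rw [← finrank_of_invertible hc hn y]
  exact (Scheme.Hom.one_le_finrank_iff_surjective (L.schemeNsmul n)).mpr this y

/-- Multiplication by an invertible integer is surjective on rational points. -/
theorem exists_point_nsmul_eq [IsIntegral A] (hc : L.IsCommutative) {n : ℕ} (hn : (n : K) ≠ 0)
    (y : SchemeHomOver (𝟙 (Spec (CommRingCat.of K))) f) : ∃ x, L.nsmul _ n x = y := by
  have := surjective_of_invertible hc hn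
  have : JacobsonSpace A := LocallyOfFiniteType.jacobsonSpace f
  have hy : IsClosed {y.1 (basePt K)} :=
    ((pointEquivClosedPoint f) ⟨y.1, y.2⟩).2
  obtain ⟨x, hx, hxc⟩ := nonempty_inter_closedPoints
    ((L.schemeNsmul n).surjective (y.1 (basePt K)) :
      (L.schemeNsmul n ⁻¹' {y.1 (basePt K)}).Nonempty)
    (hy.preimage (L.schemeNsmul n).continuous).isLocallyClosed
  let px : SchemeHomOver (𝟙 (Spec (CommRingCat.of K))) f :=
    ⟨pointOfClosedPoint f x hxc, pointOfClosedPoint_comp f x hxc⟩
  refine ⟨px, Subtype.ext (ext_of_apply_closedPoint_eq f (L.nsmul _ n px).2 y.2 ?_)⟩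
  rw [coe_nsmul]
  show L.schemeNsmul n (pointOfClosedPoint f x hxc (basePt K)) = _
  rw [pointOfClosedPoint_apply f x hxc]
  exact hx

theorem card_pow_of_invertible [IsIntegral A] (hc : L.IsCommutative) {n : ℕ} (hn : (n : K) ≠ 0)
    (k : ℕ) :
    Nat.card {x : SchemeHomOver (𝟙 (Spec (CommRingCat.of K))) f //
        L.IsTorsionPoint (𝟙 (Spec (CommRingCat.of K))) (n ^ k) x} =
      Nat.card {x : SchemeHomOver (𝟙 (Spec (CommRingCat.of K))) f //
        L.IsTorsionPoint (𝟙 (Spec (CommRingCat.of K))) n x} ^ k := by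
  let inst : CommGroup (SchemeHomOver (𝟙 (Spec (CommRingCat.of K))) f) :=
    { L.pointGroup _ with mul_comm := hc _ }
  let G := SchemeHomOver (𝟙 (Spec (CommRingCat.of K))) f
  have e : ∀ m, Nat.card {x : G // L.IsTorsionPoint (𝟙 (Spec (CommRingCat.of K))) m x} =
      Nat.card (powMonoidHom m : G →* G).ker := fun m =>
    Nat.card_congr (Equiv.subtypeEquivRight fun x => by
      rw [RelativeGroupLaw.isTorsionPoint_def, MonoidHom.mem_ker, powMonoidHom_apply,
        nsmul_eq_pow]
      rfl)
  rw [e, e]
  induction k with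
  | zero =>
    rw [pow_zero, pow_zero]
    have : (powMonoidHom 1 : G →* G).ker = ⊥ := by ext x; simp
    rw [this, Subgroup.card_bot]
  | succ k ih =>
    let N := (powMonoidHom (n ^ (k + 1)) : G →* G).ker
    let r : N →* (powMonoidHom (n ^ k) : G →* G).ker :=
      ((powMonoidHom n).comp N.subtype).codRestrict _ fun x => by
        show ((x : G) ^ n) ^ n ^ k = 1
        rw [← pow_mul, ← pow_succ']
        exact x.2
    have hr : Function.Surjective r := fun y => by
      obtain ⟨x, hx⟩ := exists_point_nsmul_eq hc hn (y : G)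
      rw [nsmul_eq_pow] at hx
      replace hx : x ^ n = (y : G) := hx
      refine ⟨⟨x, ?_⟩, Subtype.ext hx⟩
      show x ^ n ^ (k + 1) = 1
      rw [pow_succ', pow_mul, hx]
      exact y.2
    have hker : Nat.card r.ker = Nat.card (powMonoidHom n : G →* G).ker :=
      Nat.card_congr
        { toFun := fun x => ⟨x.1.1, congrArg Subtype.val x.2⟩
          invFun := fun x => ⟨⟨x.1, by
            show x.1 ^ n ^ (k + 1) = 1
            rw [pow_succ', pow_mul, show x.1 ^ n = 1 from x.2, one_pow]⟩, Subtype.ext x.2⟩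
          left_inv := fun x => rfl
          right_inv := fun x => rfl }
    rw [← Subgroup.card_mul_index r.ker, Subgroup.index_ker, hker, MonoidHom.range_eq_top.mpr hr,
      Subgroup.card_top, ih, pow_succ']

end FLTAgent.AbScheme
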